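/-
S43lib / B0 / Lift / Count  (helper8)  — Project H, block B0, the crux `Lift`, abstract part.

**The Kummer count.**  `J` an `m`-divisible abelian group (points of the Jacobian over `ℚ̄`), `J₀ ≤ J`
the inertia-fixed points, `s` an endomorphism (a power of a Frobenius element) preserving `J₀`,
`red : J → Jk` the reduction, `red ∘ s = F ∘ red` on `J₀`, injective on `J[m]`, `J[m]` finite,
`Jk^F` finite (class number), `J₀` `m`-saturated (a division point of an inertia-fixed point is
inertia-fixed).  Then every `m`-torsion class of `red (J₀^s)` is the reduction of an `m`-torsion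
point of `J₀^s`.

Proof.  `G = J₀^s`, `W = J[m]`, `B = red G` (finite).  The Kummer map `x ↦ (s - 1)(x / m)` embeds
`G / mG` into `W / (s - 1) W`, whose order is `#W^s = #G[m]`.  So
`#B[m] = #(B / mB) ≤ #(G / mG) ≤ #G[m] = #red(G[m]) ≤ #B[m]`.
-/
import Mathlib

set_option autoImplicit false

namespace Fermat.Agent.S43lib.B0.Lift

/-- kernel and cokernel of an endomorphism of a finite abelian group have the same order -/
theorem card_ker_eq_card_coker {X : Type*} [AddCommGroup X] [Finite X] (f : X →+ X) :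
    Nat.card f.ker = Nat.card (X ⧸ f.range) := by
  have h1 : Nat.card X = Nat.card (X ⧸ f.range) * Nat.card f.range :=
    AddSubgroup.card_eq_card_quotient_mul_card_addSubgroup f.range
  have h2 : Nat.card X = Nat.card (X ⧸ f.ker) * Nat.card f.ker :=
    AddSubgroup.card_eq_card_quotient_mul_card_addSubgroup f.ker
  have h3 : Nat.card (X ⧸ f.ker) = Nat.card f.range :=
    Nat.card_congr (QuotientAddGroup.quotientKerEquivRange f).toEquiv
  have hpos : 0 < Nat.card f.range := Nat.card_pos
  rw [h3] at h2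
  have h4 : Nat.card f.range * Nat.card f.ker = Nat.card f.range * Nat.card (X ⧸ f.range) := by
    rw [← h2, h1, mul_comm]
  exact Nat.eq_of_mul_eq_mul_left hpos h4

variable {J Jk : Type*} [AddCommGroup J] [AddCommGroup Jk]

/-- **the Kummer count** -/
theorem exists_torsion_lift (red : J →+ Jk) (s : J →+ J) (F : Jk →+ Jk) (J0 : AddSubgroup J)
    (m : ℕ)
    (hred : ∀ x ∈ J0, red (s x) = F (red x))
    (hdiv : ∀ x : J, ∃ z : J, m • z = x)
    (hsat : ∀ z : J, m • z ∈ J0 → z ∈ J0)
    (hinj : ∀ t : J, m • t = 0 → red t = 0 → t = 0)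
    (hW : {t : J | m • t = 0}.Finite)
    (hB : {c : Jk | F c = c}.Finite)
    (x : J) (hx0 : x ∈ J0) (hsx : s x = x) (hmx : m • red x = 0) :
    ∃ t : J, m • t = 0 ∧ s t = t ∧ red t = red x := by
  classical
  -- the groups
  let G : AddSubgroup J :=
    { carrier := {y | y ∈ J0 ∧ s y = y}
      zero_mem' := ⟨J0.zero_mem, map_zero s⟩
      add_mem' := fun {a b} ha hb => ⟨J0.add_mem ha.1 hb.1, by rw [map_add, ha.2, hb.2]⟩
      neg_mem' := fun {a} ha => ⟨J0.neg_mem ha.1, by rw [map_neg, ha.2]⟩ }
  let W : AddSubgroup J :=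
    { carrier := {t | m • t = 0}
      zero_mem' := smul_zero m
      add_mem' := fun {a b} ha hb => by
        show m • (a + b) = 0
        rw [smul_add, show m • a = 0 from ha, show m • b = 0 from hb, add_zero]
      neg_mem' := fun {a} ha => by
        show m • (-a) = 0
        rw [smul_neg, show m • a = 0 from ha, neg_zero] }
  have hWfin : Finite W := hW.to_subtype
  have hWJ0 : ∀ t ∈ W, t ∈ J0 := fun t ht => hsat t (by
    rw [show m • t = 0 from ht]; exact J0.zero_mem)
  -- `s - 1` on `W`
  let sW : W →+ W :=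
    { toFun := fun t => ⟨s t - t, by
        show m • (s (t : J) - t) = 0
        rw [smul_sub, ← map_nsmul, show m • (t : J) = 0 from t.2, map_zero, sub_zero]⟩
      map_zero' := Subtype.ext (by
        show s ((0 : W) : J) - ((0 : W) : J) = 0
        rw [AddSubgroup.coe_zero, map_zero, sub_zero])
      map_add' := fun a b => Subtype.ext (by
        show s ((a + b : W) : J) - ((a + b : W) : J) = (s a - a) + (s b - b)
        rw [AddSubgroup.coe_add, map_add]
        abel) }
  have hsW_apply : ∀ t : W, ((sW t : W) : J) = s t - t := fun _ => rfl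
  -- the reduction of `G`
  let B : AddSubgroup Jk := G.map red
  have hBfix : ∀ c ∈ B, F c = c := by
    rintro c ⟨y, hy, rfl⟩
    rw [← hred y hy.1, hy.2]
  have hBfin : Finite B := (hB.subset fun c hc => hBfix c hc).to_subtype
  -- the `m`-torsion of `B` and the reduction of the `m`-torsion of `G`
  let Bm : AddSubgroup Jk :=
    { carrier := {c | c ∈ B ∧ m • c = 0}
      zero_mem' := ⟨B.zero_mem, smul_zero m⟩
      add_mem' := fun {a b} ha hb => ⟨B.add_mem ha.1 hb.1, by rw [smul_add, ha.2, hb.2, add_zero]⟩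
      neg_mem' := fun {a} ha => ⟨B.neg_mem ha.1, by rw [smul_neg, ha.2, neg_zero]⟩ }
  let T : AddSubgroup Jk := (G ⊓ W).map red
  have hTB : T ≤ Bm := by
    rintro c ⟨t, ht, rfl⟩
    refine ⟨⟨t, ht.1, rfl⟩, ?_⟩
    rw [← map_nsmul, show m • t = 0 from ht.2, map_zero]
  have hBmfin : Finite Bm :=
    Finite.of_injective (fun c : Bm => (⟨c.1, c.2.1⟩ : B)) fun a b h =>
      Subtype.ext (congrArg (fun z : B => (z : Jk)) h)
  -- (1) `#B[m] = #(B / mB)`
  let mB : B →+ B := nsmulAddMonoidHom m
  have h1 : Nat.card Bm = Nat.card (B ⧸ mB.range) := by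
    rw [← card_ker_eq_card_coker mB]
    refine Nat.card_congr
      { toFun := fun c => ⟨⟨c.1, c.2.1⟩, by
          rw [AddMonoidHom.mem_ker]
          exact Subtype.ext c.2.2⟩
        invFun := fun c => ⟨c.1.1, c.1.2, by
          have := c.2
          rw [AddMonoidHom.mem_ker] at this
          exact congrArg (fun z : B => (z : Jk)) this⟩
        left_inv := fun c => rfl
        right_inv := fun c => rfl }
  -- (3) the Kummer map: `G / mG → W / (s - 1) W` is injective
  let mG : G →+ G := nsmulAddMonoidHom m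
  have hz : ∀ y : G, ∃ z : J, m • z = (y : J) := fun y => hdiv y
  choose zf hzf using hz
  have hzJ0 : ∀ y : G, zf y ∈ J0 := fun y => hsat _ (by rw [hzf y]; exact y.2.1)
  have hzW : ∀ y : G, s (zf y) - zf y ∈ W := fun y => by
    show m • (s (zf y) - zf y) = 0
    rw [smul_sub, ← map_nsmul, hzf y, y.2.2, sub_self]
  let δ : G → W ⧸ sW.range := fun y => QuotientAddGroup.mk ⟨s (zf y) - zf y, hzW y⟩
  have hδ : ∀ y y' : G, δ y = δ y' → ∃ u : G, m • u = y - y' := by
    intro y y' h
    rw [QuotientAddGroup.eq] at h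
    obtain ⟨t, ht⟩ := h
    have ht' : s (t : J) - t = -(s (zf y) - zf y) + (s (zf y') - zf y') := by
      have := congrArg (fun w : W => (w : J)) ht
      simpa [hsW_apply] using this
    -- `u = zf y - zf y' + t` is fixed by `s`
    have huJ0 : zf y - zf y' + t ∈ J0 :=
      J0.add_mem (J0.sub_mem (hzJ0 y) (hzJ0 y')) (hWJ0 t t.2)
    have hus : s (zf y - zf y' + t) = zf y - zf y' + t := by
      rw [map_add, map_sub]
      have : s (t : J) = t + (-(s (zf y) - zf y) + (s (zf y') - zf y')) := by
        rw [← ht']; abel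
      rw [this]
      abel
    refine ⟨⟨zf y - zf y' + t, huJ0, hus⟩, Subtype.ext ?_⟩
    show m • (zf y - zf y' + (t : J)) = (y : J) - y'
    rw [smul_add, smul_sub, hzf, hzf, show m • (t : J) = 0 from t.2, add_zero]
  let ι : G ⧸ mG.range → W ⧸ sW.range := fun q => δ (Quotient.out q)
  have hι : Function.Injective ι := by
    intro q q' h
    obtain ⟨u, hu⟩ := hδ _ _ h
    have h1 : (QuotientAddGroup.mk (Quotient.out q) : G ⧸ mG.range) =
        QuotientAddGroup.mk (Quotient.out q') := by
      rw [QuotientAddGroup.eq]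
      refine ⟨-u, ?_⟩
      show m • (-u) = -Quotient.out q + Quotient.out q'
      rw [smul_neg, hu]
      abel
    rw [QuotientAddGroup.out_eq', QuotientAddGroup.out_eq'] at h1
    exact h1
  have hWqfin : Finite (W ⧸ sW.range) := inferInstance
  have hGqfin : Finite (G ⧸ mG.range) := Finite.of_injective ι hι
  have h3 : Nat.card (G ⧸ mG.range) ≤ Nat.card (W ⧸ sW.range) :=
    Nat.card_le_card_of_injective ι hι
  -- (2) `B / mB` is a quotient of `G / mG`
  let redG : G →+ B :=
    { toFun := fun y => ⟨red y, ⟨y, y.2, rfl⟩⟩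
      map_zero' := Subtype.ext (by
        show red ((0 : G) : J) = 0
        rw [AddSubgroup.coe_zero, map_zero])
      map_add' := fun a b => Subtype.ext (by
        show red ((a + b : G) : J) = red a + red b
        rw [AddSubgroup.coe_add, map_add]) }
  have hredG : Function.Surjective redG := by
    rintro ⟨c, y, hy, rfl⟩
    exact ⟨⟨y, hy⟩, rfl⟩
  have hle : mG.range ≤ AddSubgroup.comap redG mB.range := by
    rintro _ ⟨u, rfl⟩
    exact ⟨redG u, (map_nsmul redG m u).symm⟩
  let π : G ⧸ mG.range →+ B ⧸ mB.range := QuotientAddGroup.map _ _ redG hle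
  have hπ : Function.Surjective π := by
    intro q
    obtain ⟨c, rfl⟩ := QuotientAddGroup.mk_surjective q
    obtain ⟨y, rfl⟩ := hredG c
    exact ⟨QuotientAddGroup.mk y, rfl⟩
  have h2 : Nat.card (B ⧸ mB.range) ≤ Nat.card (G ⧸ mG.range) :=
    Nat.card_le_card_of_surjective π hπ
  -- (4) `#(W / (s - 1) W) = #W^s`
  have h4 : Nat.card (W ⧸ sW.range) = Nat.card sW.ker := (card_ker_eq_card_coker sW).symm
  -- (5) `W^s` injects into `T`
  have hTfin : Finite T :=
    Finite.of_injective (fun c : T => (⟨c.1, hTB c.2⟩ : Bm)) fun a b h =>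
      Subtype.ext (congrArg (fun z : Bm => (z : Jk)) h)
  have hker : ∀ t : sW.ker, ((t : W) : J) ∈ G ⊓ W := by
    intro t
    have h := t.2
    rw [AddMonoidHom.mem_ker] at h
    have h' : s ((t : W) : J) - ((t : W) : J) = 0 := by
      have := congrArg (fun w : W => (w : J)) h
      simpa [hsW_apply] using this
    exact ⟨⟨hWJ0 _ (t : W).2, sub_eq_zero.1 h'⟩, (t : W).2⟩
  let κ : sW.ker → T := fun t => ⟨red ((t : W) : J), ⟨_, hker t, rfl⟩⟩
  have hκ : Function.Injective κ := by
    intro t t' h
    have h' : red ((t : W) : J) = red ((t' : W) : J) := congrArg (fun z : T => (z : Jk)) h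
    have h0 : ((t : W) : J) - ((t' : W) : J) = 0 := by
      refine hinj _ ?_ ?_
      · rw [smul_sub, show m • ((t : W) : J) = 0 from (t : W).2,
          show m • ((t' : W) : J) = 0 from (t' : W).2, sub_zero]
      · rw [map_sub, h', sub_self]
    exact Subtype.ext (Subtype.ext (sub_eq_zero.1 h0))
  have h5 : Nat.card sW.ker ≤ Nat.card T := Nat.card_le_card_of_injective κ hκ
  -- conclusion
  have hcard : Nat.card Bm ≤ Nat.card T := by
    rw [h1]
    exact h2.trans (h3.trans (h4 ▸ h5))
  have hEq : T = Bm := AddSubgroup.eq_of_le_of_card_ge hTB hcard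
  have hxBm : red x ∈ Bm := ⟨⟨x, ⟨hx0, hsx⟩, rfl⟩, hmx⟩
  rw [← hEq] at hxBm
  obtain ⟨t, ht, hxt⟩ := hxBm
  exact ⟨t, ht.2, ht.1.2, hxt⟩

end Fermat.Agent.S43lib.B0.Lift
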