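/-
S43lib / B0 / Lift / Main  (helper8)  — Project H, block B0, the crux `Lift`.

**The reduction map is SURJECTIVE on prime-to-`ℓ` torsion**: for `ℓ ∤ N`, `A ∣ ℓ`, `ℓ ∤ m`, every class
of `JZeroC k N` killed by `m` is the reduction of a point of `J₀(N)(ℚ̄)` killed by `m`
(`exists_torsion_lift_modL`); with S18, `reductionModL A N : J₀(N)[m] → JZeroC k N [m]` is BIJECTIVE
(`exists_unique_torsion_lift_modL`).

Inputs (all landed): S18 (injectivity), `S37lib.C0.hinert / hfrob` (equivariance), divisibility of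
`Pic⁰` over `ℚ̄` (`S15lib.Desc.divisibleAt_Qb`), finiteness of `J₀(N)[m]` (`S19lib.T.finite_tors_nat`),
finiteness of the Frobenius-fixed classes of the residue curve (`S15lib.Fin`), inertia-fixed lifts of
places (`S19lib.B.mod_fixedLiftPlaceStmt`), open stabilisers (`S29lib.GH.finiteLevel_fix_class`), and the
Kummer count `Lift/Count.lean`.
-/
import Fermat.Agent.S43lib.B0.Lift.Count
import Fermat.Agent.S15lib.Fin.Main
import Fermat.Agent.S15lib.Desc.Final
import Fermat.Agent.S29lib.GH.Local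
import Fermat.Agent.S29lib.GH.OpenStab
import Fermat.Agent.S19lib.T.Tors
import Fermat.Agent.S19lib.B.InstCtx
import Fermat.Agent.S44lib.AnnInst.Frob

set_option autoImplicit false
set_option linter.unusedSectionVars false
set_option linter.style.haveILetI false

noncomputable section

namespace Fermat.Agent.S43lib.B0.Lift

open AlgebraicCurve ModularCurve
open Fermat.Agent.S18lib Fermat.Agent.S37lib Fermat.Agent.S37lib.C0 Fermat.Agent.S19lib

local notation "Qb" => AlgebraicClosure ℚ
local notation "GQ" => (AlgebraicClosure ℚ ≃ₐ[ℚ] AlgebraicClosure ℚ)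

/-- a power of every element of `G_ℚ` fixes a given finite extension pointwise -/
theorem exists_pow_fixing (L : IntermediateField ℚ Qb) [FiniteDimensional ℚ L] (σ : GQ) :
    ∃ n : ℕ, 0 < n ∧ ∀ y ∈ L, (σ ^ n) y = y := by
  have : Finite (L →ₐ[ℚ] Qb) := inferInstance
  let f : ℕ → (L →ₐ[ℚ] Qb) := fun i => ((σ ^ i : GQ) : Qb →ₐ[ℚ] Qb).comp L.val
  obtain ⟨i, j, hij, h⟩ := Finite.exists_ne_map_eq_of_infinite f
  wlog hlt : i < j generalizing i j
  · exact this j i hij.symm h.symm (lt_of_le_of_ne (not_lt.1 hlt) hij.symm)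
  refine ⟨j - i, Nat.sub_pos_of_lt hlt, fun y hy => ?_⟩
  have h1 : (σ ^ i) y = (σ ^ j) y := DFunLike.congr_fun h ⟨y, hy⟩
  have h2 : σ ^ j = σ ^ i * σ ^ (j - i) := by
    rw [← pow_add, Nat.add_sub_cancel' hlt.le]
  rw [h2, AlgEquiv.mul_apply] at h1
  exact ((σ ^ i).injective h1).symm

variable (N : ℕ) [NeZero N] {ℓ : ℕ} [Fact ℓ.Prime]
variable (A : ValuationSubring (AlgebraicClosure ℚ))
variable (hℓN : ¬ ℓ ∣ N) (hA : A.LiesOverPrime ℓ)

local notation "kA" => IsLocalRing.ResidueField A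

/-- every class has a power of a given Galois element in its stabiliser -/
theorem exists_pow_smul_eq (σ : GQ) (x : JZero N) : ∃ n : ℕ, 0 < n ∧ σ ^ n • x = x := by
  obtain ⟨L, hL, h⟩ := Fermat.Agent.S29lib.GH.finiteLevel_fix_class N x
  obtain ⟨n, hn, hfix⟩ := exists_pow_fixing L σ
  exact ⟨n, hn, h (σ ^ n) hfix⟩

include hℓN hA in
/-- **the reduction map is surjective on points** (places lift) -/
theorem reductionModL_surjective : Function.Surjective (reductionModL A N) := by
  classical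
  intro b
  obtain ⟨⟨D, hD⟩, rfl⟩ := Pic0.mk_surjective b
  have hlift := B.mod_fixedLiftPlaceStmt N A hℓN hA
  choose lift hlift_r _ using hlift
  have hr : ∀ Q, placeReductionModL (B3.reductionInputsModL N A hℓN hA) (lift Q) = Q := hlift_r
  set r := placeReductionModL (B3.reductionInputsModL N A hℓN hA) with hrdef
  have hdegr : ∀ P, (r P).deg = P.deg :=
    (isPlaceReductionModL_placeReductionModL (B3.reductionInputsModL N A hℓN hA)).1
  set Dt : Divisor Qb (FBar N) := Finsupp.mapDomain lift D with hDt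
  have hmap : Finsupp.mapDomain r Dt = D := by
    rw [hDt, ← Finsupp.mapDomain_comp]
    have : r ∘ lift = id := funext hr
    rw [this, Finsupp.mapDomain_id]
  have hDt0 : Dt ∈ Divisor.degZero (K := Qb) (F := FBar N) := by
    rw [Divisor.mem_degZero, ← degree_mapDomain_of_deg_eq hdegr, hmap]
    exact hD
  refine ⟨Pic0.mk ⟨Dt, hDt0⟩, ?_⟩
  rw [reductionModL_mk (B3.reductionInputsModL N A hℓN hA)]
  exact congrArg Pic0.mk (Subtype.ext hmap)

include hℓN hA in
/-- **inertia-fixed lifts** -/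
theorem exists_inertia_fixed_lift (b : JZeroC kA N) :
    ∃ x : JZero N, (∀ τ ∈ IA A, τ • x = x) ∧ reductionModL A N x = b := by
  obtain ⟨x, rfl⟩ := reductionModL_surjective N A hℓN hA b
  obtain ⟨G, hG, hK⟩ := Fermat.Agent.S15lib.exists_germ_ker N ℓ hℓN A hA
  obtain ⟨y, hy, hxy⟩ := hG x
  refine ⟨y, hy, ?_⟩
  have := (hK _).1 hxy
  rw [map_sub, sub_eq_zero] at this
  exact this.symm

/-- the `n`-th power of the Frobenius endomorphism of `JZeroC k N` -/
def FrPow (n : ℕ) : JZeroC kA N →+ JZeroC kA N :=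
  haveI := expChar_kRes hA
  haveI := perfectRing_kRes hA
  DistribSMul.toAddMonoidHom (JZeroC kA N) ((frobAut A N ℓ) ^ n)

theorem FrPow_apply (n : ℕ) (y : JZeroC kA N) :
    FrPow N A hA n y =
      (haveI := expChar_kRes hA
       haveI := perfectRing_kRes hA
       (frobAut A N ℓ) ^ n • y) := rfl

include hℓN in
/-- reduction intertwines the powers of a Frobenius element with the powers of `Fr` -/
theorem reductionModL_pow_frob (σ : GQ) (hσ : A.IsFrobeniusAt σ ℓ) (n : ℕ) (x : JZero N) :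
    reductionModL A N (σ ^ n • x) = FrPow N A hA n (reductionModL A N x) := by
  haveI := expChar_kRes hA
  haveI := perfectRing_kRes hA
  induction n generalizing x with
  | zero =>
    rw [pow_zero, one_smul, FrPow_apply, pow_zero, one_smul]
  | succ n ih =>
    rw [pow_succ, mul_smul, ih, hfrob N A hℓN hA σ hσ x, FrPow_apply, FrPow_apply, pow_succ,
      mul_smul, Fr_apply]

include hℓN in
/-- **class number**: a positive power of `Fr` fixes only finitely many classes -/
theorem finite_FrPow_fixed {n : ℕ} (hn : 0 < n) :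
    {y : JZeroC kA N | FrPow N A hA n y = y}.Finite := by
  haveI := expChar_kRes hA
  haveI := perfectRing_kRes hA
  obtain ⟨g, -, hFk⟩ := B3.exists_genus_level N A hℓN hA (B3.reductionInputsModL N A hℓN hA)
  have h1 : {y : JZeroC kA N | (frobAut A N ℓ) ^ n • y = y}.Finite := by
    refine Fermat.Agent.S15lib.Fin.finite_fixed_classes hFk ((frobAut A N ℓ) ^ n)
      (Fermat.Agent.S15lib.Fin.pInfK A N) ?_ ?_
    · rw [Fermat.Agent.S15lib.Fin.frobAut_pow]
      exact Fermat.Agent.S15lib.Fin.resAut_smul_pInfK A N _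
    · intro m hm
      rw [← pow_mul, Fermat.Agent.S15lib.Fin.frobAut_pow]
      exact Fermat.Agent.S15lib.Fin.finite_fixed_places A N hFk _
        (Fermat.Agent.S15lib.Fin.finite_fixed_frob_pow A ℓ (Nat.mul_pos hn hm))
  exact h1

/-- the inertia-fixed points -/
def inertiaFixed : AddSubgroup (JZero N) where
  carrier := {x | ∀ τ ∈ IA A, τ • x = x}
  zero_mem' := fun τ _ => smul_zero τ
  add_mem' := fun {a b} ha hb τ hτ => by rw [smul_add, ha τ hτ, hb τ hτ]
  neg_mem' := fun {a} ha τ hτ => by rw [smul_neg, ha τ hτ]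

theorem mem_inertiaFixed {x : JZero N} : x ∈ inertiaFixed N A ↔ ∀ τ ∈ IA A, τ • x = x := Iff.rfl

/-- the decomposition group normalises the inertia group -/
theorem conj_mem_IA {σ τ : GQ} (hσ : σ ∈ A.decompositionSubgroup ℚ) (hτ : τ ∈ IA A) :
    σ⁻¹ * τ * σ ∈ IA A := by
  obtain ⟨t, ht, rfl⟩ := Subgroup.mem_map.1 hτ
  have hn : (A.inertiaSubgroup ℚ).Normal := by
    unfold ValuationSubring.inertiaSubgroup
    exact MonoidHom.normal_ker _
  have := hn.conj_mem t ht (⟨σ, hσ⟩ : A.decompositionSubgroup ℚ)⁻¹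
  refine Subgroup.mem_map.2 ⟨_, this, ?_⟩
  simp

include hℓN hA in
/-- **`Lift`: surjectivity of the reduction map on prime-to-`ℓ` torsion** -/
theorem exists_torsion_lift_modL (m : ℕ) (hm : ¬ ℓ ∣ m) (b : JZeroC kA N) (hb : m • b = 0) :
    ∃ t : JZero N, m • t = 0 ∧ reductionModL A N t = b := by
  have hℓ : ℓ.Prime := Fact.out
  have hm0 : 0 < m := Nat.pos_of_ne_zero fun h => hm (h ▸ dvd_zero ℓ)
  obtain ⟨σ, hσ⟩ := Fermat.Agent.S44lib.AnnInst.exists_isFrobeniusAt_of_liesOver hℓ hA
  have hσD : σ ∈ A.decompositionSubgroup ℚ := hσ.mem_decompositionSubgroup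
  obtain ⟨x, hxI, hxb⟩ := exists_inertia_fixed_lift N A hℓN hA b
  obtain ⟨n, hn, hnx⟩ := exists_pow_smul_eq N σ x
  have hσnD : σ ^ n ∈ A.decompositionSubgroup ℚ := Subgroup.pow_mem _ hσD n
  have hinertia := hinert N A hℓN hA
  -- the hypotheses of the count
  have hsat : ∀ z : JZero N, m • z ∈ inertiaFixed N A → z ∈ inertiaFixed N A := by
    intro z hz τ hτ
    have hmem : τ • z - z ∈ Fermat.Agent.S29lib.Tors N m := by
      rw [Submodule.mem_torsionBy_iff, natCast_zsmul, nsmul_sub]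
      have : m • (τ • z) = τ • (m • z) :=
        (map_nsmul (DistribSMul.toAddMonoidHom (JZero N) τ) m z).symm
      rw [this, hz τ hτ, sub_self]
    have h0 : reductionModL A N (τ • z - z) = 0 := by
      rw [map_sub, hinertia τ hτ z, sub_self]
    exact sub_eq_zero.1
      (Fermat.Agent.S29lib.GH.eq_zero_of_reduction_eq_zero N ℓ hℓ hℓN A hA m hm _ hmem h0)
  obtain ⟨t, ht, -, hred⟩ := exists_torsion_lift (reductionModL A N)
    (DistribSMul.toAddMonoidHom (JZero N) (σ ^ n)) (FrPow N A hA n) (inertiaFixed N A) m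
    (fun y _ => reductionModL_pow_frob N A hℓN hA σ hσ n y)
    (fun y => by
      obtain ⟨z, hz⟩ := Fermat.Agent.S15lib.Desc.divisibleAt_Qb hm0 (HeckeInst.FB N)
        (HeckeInst.jB N) (HeckeInst.transcendental_jB N)
        (HeckeInst.finiteDimensional_adjoin N (HeckeInst.transcendental_jB N)) y
      exact ⟨z, hz⟩)
    hsat
    (fun t ht h0 => Fermat.Agent.S29lib.GH.eq_zero_of_reduction_eq_zero N ℓ hℓ hℓN A hA m hm t
      (by rw [Submodule.mem_torsionBy_iff, natCast_zsmul]; exact ht) h0)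
    ((Fermat.Agent.S19lib.T.finite_tors_nat N m hm0.ne').subset fun t ht => by
      rw [SetLike.mem_coe, Submodule.mem_torsionBy_iff, natCast_zsmul]; exact ht)
    (finite_FrPow_fixed N A hℓN hA hn)
    x hxI hnx (by rw [hxb]; exact hb)
  exact ⟨t, ht, hred.trans hxb⟩

include hℓN hA in
/-- **`Lift`: the reduction map is bijective on prime-to-`ℓ` torsion** -/
theorem existsUnique_torsion_lift_modL (m : ℕ) (hm : ¬ ℓ ∣ m) (b : JZeroC kA N) (hb : m • b = 0) :
    ∃! t : JZero N, m • t = 0 ∧ reductionModL A N t = b := by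
  have hℓ : ℓ.Prime := Fact.out
  obtain ⟨t, ht, htb⟩ := exists_torsion_lift_modL N A hℓN hA m hm b hb
  refine ⟨t, ⟨ht, htb⟩, fun t' ht' => ?_⟩
  refine sub_eq_zero.1
    (Fermat.Agent.S29lib.GH.eq_zero_of_reduction_eq_zero N ℓ hℓ hℓN A hA m hm _ ?_ ?_)
  · rw [Submodule.mem_torsionBy_iff, natCast_zsmul, nsmul_sub, ht'.1, ht, sub_zero]
  · rw [map_sub, ht'.2, htb, sub_self]

end Fermat.Agent.S43lib.B0.Lift

end
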