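/-
S43lib / B0 / Lift / Old  (helper8)  — Project H, block B0: the field `old` of the tame package.

**`tameOldStmt_of_torsEigen : TorsEigenStmt → TameOldStmt`** (`TameOldStmt` of `B0/Pkg/Geom.lean`).

`A ∣ q`, `q ∤ M`, `p ≠ q`.  A non-zero residue-free Hecke eigenvector `Ψ x = (ω₁, ω₂)` of
`Ω = Om × Om` (classes of functions on the two components `X₀(M)_k` of the special fibre modulo constants
and `p`-th powers): one of the `ω_i = [φ]` is non-zero, all orders of `φ` are divisible by `p`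
(off the nodes automatically, at the nodes because the residues vanish), so `div φ = p • E` and
`b = [E] ∈ Pic⁰(X₀(M)_k)[p]` is non-zero (`isCPow_of_mk_eq_zero`), with `T̄_ℓ b = a_ℓ b`
(`sub_zsmul_mem_principal`).  `Lift` (`Lift/Main.lean`) gives `t ∈ J₀(M)[p]` reducing to `b`;
`T_ℓ t - a_ℓ t` is `p`-torsion and reduces to `0` (reduction commutes with the Hecke correspondence on
divisors: `S15lib.RedH.heckeDefect_eq_zero`), hence vanishes (S18).  So `t` is a non-zero Hecke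
eigenclass of `J₀(M)[p]`, and `TorsEigenStmt` (Eichler–Shimura + Deligne–Serre, `Lift/TorsEigen.lean`)
produces the eigenform of level `M = M q / q`.
-/
import Fermat.Agent.S43lib.B0.Lift.Main
import Fermat.Agent.S43lib.B0.Pkg.Geom
import Fermat.Agent.S15lib.RedH.Main

set_option autoImplicit false
set_option linter.unusedSectionVars false
set_option linter.style.haveILetI false

noncomputable section

namespace Fermat.Agent.S43lib.B0.Lift

open AlgebraicCurve ModularCurve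
open Fermat.Agent.S18lib Fermat.Agent.S37lib Fermat.Agent.S19lib
open Fermat.Agent.S44lib Fermat.Agent.S44lib.Kap Fermat.Agent.S33lib
open Fermat.Agent.LSb Fermat.Agent.LSb.Unit

local notation "Qb" => AlgebraicClosure ℚ
local notation "GQ" => (AlgebraicClosure ℚ ≃ₐ[ℚ] AlgebraicClosure ℚ)

section Abstract

variable {L : Type*} [Field L] {A : ValuationSubring L}
variable {Fk : Type*} [Field Fk] [Algebra (IsLocalRing.ResidueField A) Fk]

local notation "k" => IsLocalRing.ResidueField A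

/-- integer multiples of the class of a function -/
theorem Om_zsmul_mk {m : ℕ} {φ : Fk} (h : φ ≠ 0) (a : ℤ) :
    a • (Om.mk φ h : Om A Fk m) = Om.mk (φ ^ a) (zpow_ne_zero a h) := by
  rw [Om.mk, Om.mk, ← ofMul_zpow, ← QuotientGroup.mk_zpow]
  congr 2
  ext
  rw [Units.val_zpow_eq_zpow_val]
  rfl

variable [HasPrincipalDivisors (IsLocalRing.ResidueField A) Fk]

/-- a function all of whose orders are divisible by `m` has divisor `m • E` -/
theorem exists_divisor_of_ordHom_eq_zero {m : ℕ} (hm : m ≠ 0) {φ : Fk} (h : φ ≠ 0)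
    (hord : ∀ Q : Place k Fk, Om.ordHom Q (Om.mk φ h : Om A Fk m) = 0) :
    ∃ E : Divisor.degZero (K := k) (F := Fk), (m : ℤ) • (E : Divisor k Fk) = divOf (K := k) φ := by
  classical
  have hdvd : ∀ Q : Place k Fk, (m : ℤ) ∣ Q.ord φ := by
    intro Q
    have := hord Q
    rw [Om.ordHom_mk] at this
    exact (ZMod.intCast_zmod_eq_zero_iff_dvd _ m).1 this
  choose e he using hdvd
  have hm' : (m : ℤ) ≠ 0 := by exact_mod_cast hm
  set E : Divisor k Fk := Finsupp.onFinset (divOf (K := k) φ).support e (fun Q hQ => by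
    rw [Finsupp.mem_support_iff, divOf_apply', he Q]
    exact mul_ne_zero hm' hQ) with hE
  have hmE : (m : ℤ) • E = divOf (K := k) φ := by
    ext Q
    rw [Finsupp.smul_apply, hE, Finsupp.onFinset_apply, divOf_apply', he Q, smul_eq_mul]
  have hdeg : Divisor.degree E = 0 := by
    have h1 : (m : ℤ) • Divisor.degree E = 0 := by
      rw [← map_zsmul, hmE, degree_divOf]
    rcases smul_eq_zero.1 h1 with h2 | h2
    · exact absurd h2 hm'
    · exact h2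
  exact ⟨⟨E, hdeg⟩, hmE⟩

/-- if the class of `E` vanishes then `φ` is a constant times an `m`-th power -/
theorem isCPow_of_mk_eq_zero {g : ℕ} (hF : IsCurveOfGenus k Fk g) {m : ℕ} {φ : Fk} (h : φ ≠ 0)
    {E : Divisor.degZero (K := k) (F := Fk)}
    (hE : (m : ℤ) • (E : Divisor k Fk) = divOf (K := k) φ) (h0 : Pic0.mk E = 0) :
    IsCPow A m φ := by
  have h1 := (QuotientAddGroup.eq_zero_iff _).1 h0
  rw [AddSubgroup.mem_addSubgroupOf] at h1
  obtain ⟨ψ, hψ, hEψ⟩ := mem_principal_iff.1 h1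
  have hψm : ψ ^ m ≠ 0 := pow_ne_zero m hψ
  have hu0 : φ * (ψ ^ m)⁻¹ ≠ 0 := mul_ne_zero h (inv_ne_zero hψm)
  have hord : ∀ Q : Place k Fk, Q.ord (φ * (ψ ^ m)⁻¹) = 0 := by
    intro Q
    have e1 := congrArg (fun D : Divisor k Fk => D Q) hE
    simp only [Finsupp.smul_apply, smul_eq_mul] at e1
    rw [hEψ, divOf_apply', divOf_apply'] at e1
    rw [Q.ord_mul h (inv_ne_zero hψm), Q.ord_inv, ← zpow_natCast, Q.ord_zpow, ← e1]
    ring
  obtain ⟨c, hc⟩ := Fermat.Agent.S29lib.K1.const_of_ord_eq_zero hF _ hu0 hord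
  refine ⟨c, ψ, ?_⟩
  rw [hc]
  field_simp

/-- the eigen relation on divisors -/
theorem sub_zsmul_mem_principal {m : ℕ} (hm : m ≠ 0) {φ φ' : Fk} (h : φ ≠ 0) (h' : φ' ≠ 0) (a : ℤ)
    (heq : (Om.mk φ' h' : Om A Fk m) = a • Om.mk φ h)
    {E E' : Divisor k Fk} (hE : (m : ℤ) • E = divOf (K := k) φ)
    (hE' : (m : ℤ) • E' = divOf (K := k) φ') :
    E' - a • E ∈ Divisor.principal (K := k) (F := Fk) := by
  rw [Om_zsmul_mk h a] at heq
  obtain ⟨c, χ, hcχ⟩ := (Om.mk_eq_mk_iff (zpow_ne_zero a h) h').1 heq.symm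
  have hm' : (m : ℤ) ≠ 0 := by exact_mod_cast hm
  have hl0 : φ' * (φ ^ a)⁻¹ ≠ 0 := mul_ne_zero h' (inv_ne_zero (zpow_ne_zero a h))
  have hχ : χ ≠ 0 := by
    rintro rfl
    rw [zero_pow hm, mul_zero] at hcχ
    exact hl0 hcχ
  have hc : algebraMap k Fk c ≠ 0 := by
    intro h0
    rw [h0, zero_mul] at hcχ
    exact hl0 hcχ
  have hc' : c ≠ 0 := fun h0 => hc (by rw [h0, map_zero])
  refine mem_principal_iff.2 ⟨χ, hχ, ?_⟩
  ext Q
  have e1 := congrArg (fun D : Divisor k Fk => D Q) hE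
  have e2 := congrArg (fun D : Divisor k Fk => D Q) hE'
  simp only [Finsupp.smul_apply, smul_eq_mul] at e1 e2
  rw [divOf_apply'] at e1 e2
  have e3 := congrArg Q.ord hcχ
  rw [Q.ord_mul h' (inv_ne_zero (zpow_ne_zero a h)), Q.ord_inv, Q.ord_zpow,
    Q.ord_mul hc (pow_ne_zero m hχ), S18lib.Cech.ord_const, zero_add, S18lib.Cech.ord_pow,
    ← e1, ← e2] at e3
  rw [Finsupp.sub_apply, Finsupp.smul_apply, smul_eq_mul, divOf_apply']
  have : (m : ℤ) * (E' Q - a * E Q) = (m : ℤ) * Q.ord χ := by rw [← e3]; ring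
  exact mul_left_cancel₀ hm' this

end Abstract

/-- classes of degree-zero divisors: a principal difference gives a multiple -/
theorem pic0_mk_eq_zsmul {K F : Type*} [Field K] [Field F] [Algebra K F]
    (Z W : Divisor.degZero (K := K) (F := F)) (a : ℤ)
    (h : (Z : Divisor K F) - a • (W : Divisor K F) ∈ Divisor.principal (K := K) (F := F)) :
    Pic0.mk Z = a • Pic0.mk W := by
  have e : a • Pic0.mk W = Pic0.mk (a • W) := rfl
  rw [e, eq_comm]
  refine (QuotientAddGroup.eq).2 ?_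
  rw [AddSubgroup.mem_addSubgroupOf]
  have : ((-(a • W) + Z : Divisor.degZero (K := K) (F := F)) : Divisor K F) =
      (Z : Divisor K F) - a • (W : Divisor K F) := by
    rw [AddSubgroup.coe_add, AddSubgroup.coe_neg, AddSubgroup.coe_zsmul]
    abel
  rw [this]
  exact h

theorem pic0_mk_eq_iff_sub_mem {K F : Type*} [Field K] [Field F] [Algebra K F]
    (Z W : Divisor.degZero (K := K) (F := F)) :
    Pic0.mk Z = Pic0.mk W ↔
      (Z : Divisor K F) - (W : Divisor K F) ∈ Divisor.principal (K := K) (F := F) := by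
  rw [eq_comm]
  refine (QuotientAddGroup.eq).trans ?_
  rw [AddSubgroup.mem_addSubgroupOf]
  have : ((-W + Z : Divisor.degZero (K := K) (F := F)) : Divisor K F) =
      (Z : Divisor K F) - (W : Divisor K F) := by
    rw [AddSubgroup.coe_add, AddSubgroup.coe_neg]
    abel
  rw [this]

section Modular

variable {A : ValuationSubring (AlgebraicClosure ℚ)} {M q : ℕ} [NeZero M] [hq : Fact q.Prime]

local notation "kA" => IsLocalRing.ResidueField A

/-- **the reduction of `T_ℓ` on classes is `T̄_ℓ` on divisors** (`ℓ ≠ q` prime, `q ∤ M ℓ`, `A ∣ q`) -/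
theorem reductionModL_heckeOperatorBar_mk (hqM : ¬ q ∣ M) (hA : A.LiesOverPrime q)
    {ℓ : ℕ} [NeZero ℓ] (hℓ : ℓ.Prime) (hqℓ : q ≠ ℓ)
    [HasPrincipalDivisors (IsLocalRing.ResidueField A) (FRes A (M * ℓ))]
    (E : Divisor.degZero (K := Qb) (F := FBar M)) :
    ∃ (Z W : Divisor.degZero (K := kA) (F := FRes A M)),
      reductionModL A M (heckeOperatorBar M ⟨ℓ, hℓ⟩ (Pic0.mk E)) = Pic0.mk Z ∧
      reductionModL A M (Pic0.mk E) = Pic0.mk W ∧
      (Z : Divisor kA (FRes A M)) = Q4.heckeDivK A M ℓ (W : Divisor kA (FRes A M)) := by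
  haveI : Fact ℓ.Prime := ⟨hℓ⟩
  have hq' : q.Prime := hq.out
  have hqMℓ : ¬ q ∣ M * ℓ := by
    intro hd
    rcases (Nat.Prime.dvd_mul hq').mp hd with h1 | h1
    · exact hqM h1
    · exact hqℓ ((Nat.prime_dvd_prime_iff_eq hq' hℓ).mp h1)
  have h : ReductionInputsModL A M := B3.reductionInputsModL M A hqM hA
  obtain ⟨γ, hF, hFk⟩ := B3.exists_genus_level M A hqM hA h
  obtain ⟨γ', hFk'⟩ := B3.exists_isCurveOfGenus_FRes A (M * ℓ) hqMℓ hA
  haveI := hF.hasPrincipalDivisors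
  haveI := hFk.hasPrincipalDivisors
  haveI := HeckeInst.hasPrincipalDivisors_FB (M * ℓ)
  have hdeg' : ∀ w : Place kA (FRes A (M * ℓ)), w.deg = 1 := hFk'.deg_eq_one
  have hzero := Fermat.Agent.S15lib.RedH.heckeDefect_eq_zero M A ℓ hqM hqℓ hA h hdeg'
  have h0 := ES.heckeOperatorBar_mk M hℓ E
  have h1 := reductionModL_mk h E
  have h2 := reductionModL_mk h (Pic0.degZeroCorrespondence (heckeBetaBar Qb M ℓ)
    (heckeAlphaBar Qb M ℓ) (HeckeInst.heckeBetaBarIntegral M ℓ) (HeckeInst.heckeAlphaBarIntegral M ℓ)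
    (HeckeInst.fundamentalIdentityAlong_beta M ℓ) E)
  refine ⟨_, _, (congrArg (fun x => reductionModL A M x) h0).trans h2, h1, ?_⟩
  have hE := (Fermat.Agent.S15lib.RedH.heckeDefect_eq_zero_iff M ℓ A
    (Fermat.Agent.S15lib.RedH.theDatum A M hqM hA h)
    (E : Divisor Qb (FBar M))).mp (by rw [hzero]; rfl)
  exact hE

/-- `T̄_ℓ` maps principal divisors to principal divisors -/
theorem heckeDivK_mem_principal (hA : A.LiesOverPrime q) {ℓ : ℕ} [NeZero ℓ] (hqMℓ : ¬ q ∣ M * ℓ)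
    [HasPrincipalDivisors kA (FRes A M)] [HasPrincipalDivisors kA (FRes A (M * ℓ))]
    (hdeg : ∀ w : Place kA (FRes A (M * ℓ)), w.deg = 1) {X : Divisor kA (FRes A M)}
    (hX : X ∈ Divisor.principal (K := kA) (F := FRes A M)) :
    Q4.heckeDivK A M ℓ X ∈ Divisor.principal (K := kA) (F := FRes A M) := by
  obtain ⟨ψ, hψ, rfl⟩ := mem_principal_iff.1 hX
  rw [Fermat.Agent.S15lib.RedH.heckeDivK_divOf hA hqMℓ hdeg hψ]
  exact divOf_mem_principal
    (ES.normAlong_ne_zero _ (Q4.finiteAlong_alphaK A M ℓ) ((map_ne_zero _).mpr hψ))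

/-- **from a residue-free Hecke eigenclass of functions on the special fibre to a Hecke eigenclass in
`J₀(M)[p]`.**  `A ∣ q`, `q ∤ M`, `q ∤ p`; `ω ≠ 0` a class of functions on `X₀(M)_k` modulo constants and
`p`-th powers, all of whose orders are divisible by `p`, with `T̄_ℓ ω = a_ℓ ω` for `ℓ ∈ S`. -/
theorem exists_eigen_torsion_of_om (hqM : ¬ q ∣ M) (hA : A.LiesOverPrime q) (p : ℕ) (hp0 : p ≠ 0)
    (hqp : ¬ q ∣ p) (ω : Om A (FRes A M) p) (hω0 : ω ≠ 0)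
    (hord : ∀ Q : Place kA (FRes A M), Om.ordHom Q ω = 0)
    (a : ℕ → ℤ) (S : ℕ → Prop) (hS : ∀ ℓ, S ℓ → ℓ.Prime ∧ ¬ ℓ ∣ M * q)
    (heig : ∀ (ℓ : ℕ) [NeZero ℓ], S ℓ → Q4.heckeOm A M ℓ p ω = a ℓ • ω) :
    ∃ t : JZero M, t ≠ 0 ∧ (p : ℤ) • t = 0 ∧
      ∀ (ℓ : ℕ) (hℓ : ℓ.Prime), S ℓ → heckeOperatorBar M ⟨ℓ, hℓ⟩ t = a ℓ • t := by
  have hq' : q.Prime := hq.out
  have h : ReductionInputsModL A M := B3.reductionInputsModL M A hqM hA
  obtain ⟨γ, hF, hFk⟩ := B3.exists_genus_level M A hqM hA h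
  haveI := hF.hasPrincipalDivisors
  haveI := hFk.hasPrincipalDivisors
  -- the class `b`
  obtain ⟨φ, hφ, rfl⟩ := Om.exists_rep ω
  obtain ⟨E₀, hE₀⟩ := exists_divisor_of_ordHom_eq_zero hp0 hφ hord
  have hb0 : Pic0.mk E₀ ≠ 0 := by
    intro h0
    exact hω0 ((Om.mk_eq_zero_iff hφ).2 (isCPow_of_mk_eq_zero hFk hφ hE₀ h0))
  have hpb : p • (Pic0.mk E₀ : JZeroC kA M) = 0 := by
    have e : p • (Pic0.mk E₀ : JZeroC kA M) = Pic0.mk (p • E₀) := rfl
    rw [e]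
    refine (QuotientAddGroup.eq_zero_iff _).2 ?_
    rw [AddSubgroup.mem_addSubgroupOf, AddSubgroup.coe_nsmul, ← natCast_zsmul, hE₀]
    exact divOf_mem_principal hφ
  -- the lift
  obtain ⟨t, hpt, htb⟩ := exists_torsion_lift_modL M A hqM hA p hqp _ hpb
  have ht0 : t ≠ 0 := by
    rintro rfl
    rw [map_zero] at htb
    exact hb0 htb.symm
  have hpt' : (p : ℤ) • t = 0 := by rw [natCast_zsmul]; exact hpt
  refine ⟨t, ht0, hpt', fun ℓ hℓ hSℓ => ?_⟩
  haveI : NeZero ℓ := ⟨hℓ.ne_zero⟩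
  have hℓN := (hS ℓ hSℓ).2
  have hqℓ : q ≠ ℓ := by
    rintro rfl
    exact hℓN (Dvd.intro_left M rfl)
  have hqMℓ : ¬ q ∣ M * ℓ := by
    intro hd
    rcases (Nat.Prime.dvd_mul hq').mp hd with h1 | h1
    · exact hqM h1
    · exact hqℓ ((Nat.prime_dvd_prime_iff_eq hq' hℓ).mp h1)
  obtain ⟨γ', hFk'⟩ := B3.exists_isCurveOfGenus_FRes A (M * ℓ) hqMℓ hA
  haveI := hFk'.hasPrincipalDivisors
  have hdeg' : ∀ w : Place kA (FRes A (M * ℓ)), w.deg = 1 := hFk'.deg_eq_one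
  -- it suffices to prove that the reduction of `T_ℓ t - a_ℓ t` vanishes
  refine sub_eq_zero.1
    (Fermat.Agent.S29lib.GH.eq_zero_of_reduction_eq_zero M q hq' hqM A hA p hqp _ ?_ ?_)
  · rw [Submodule.mem_torsionBy_iff, smul_sub, ← map_zsmul, hpt', map_zero, smul_comm, hpt',
      smul_zero, sub_zero]
  rw [map_sub, map_zsmul, sub_eq_zero]
  obtain ⟨Et, rfl⟩ := Pic0.mk_surjective t
  obtain ⟨Z, W, hZ, hW, hZW⟩ := reductionModL_heckeOperatorBar_mk hqM hA hℓ hqℓ Et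
  rw [hZ, hW]
  apply pic0_mk_eq_zsmul
  -- `W ~ E₀`
  have hWE : (W : Divisor kA (FRes A M)) - (E₀ : Divisor kA (FRes A M)) ∈
      Divisor.principal (K := kA) (F := FRes A M) :=
    (pic0_mk_eq_iff_sub_mem W E₀).1 (hW.symm.trans htb)
  -- `T̄ E₀ ~ a E₀`
  have hTE : Q4.heckeDivK A M ℓ (E₀ : Divisor kA (FRes A M)) - a ℓ • (E₀ : Divisor kA (FRes A M)) ∈
      Divisor.principal (K := kA) (F := FRes A M) := by
    refine sub_zsmul_mem_principal hp0 hφ (Q4.heckeFunK_ne_zero (ℓ := ℓ) hφ) (a ℓ) ?_ hE₀ ?_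
    · rw [← Q4.heckeOm_mk]
      exact heig ℓ hSℓ
    · rw [← map_zsmul, hE₀, Fermat.Agent.S15lib.RedH.heckeDivK_divOf hA hqMℓ hdeg' hφ]
      rfl
  have hsum : (Z : Divisor kA (FRes A M)) - a ℓ • (W : Divisor kA (FRes A M)) =
      Q4.heckeDivK A M ℓ ((W : Divisor kA (FRes A M)) - (E₀ : Divisor kA (FRes A M))) +
      (Q4.heckeDivK A M ℓ (E₀ : Divisor kA (FRes A M)) - a ℓ • (E₀ : Divisor kA (FRes A M))) -
      a ℓ • ((W : Divisor kA (FRes A M)) - (E₀ : Divisor kA (FRes A M))) := by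
    rw [hZW, map_sub, smul_sub]
    abel
  rw [hsum]
  exact sub_mem (add_mem (heckeDivK_mem_principal hA hqMℓ hdeg' hWE) hTE) (zsmul_mem hWE _)

end Modular

local notation "Zbar" => integralClosure ℤ ℂ

/-- **`TorsEigenToForm`** (pure Hecke theory, no geometry): a non-zero class of `J₀(M)[p]` which is an
eigenvector of the `T_ℓ`, `ℓ ∈ S` (primes not dividing `M`), with integer eigenvalues `a_ℓ`, comes from a
normalized eigenform of level `M` whose eigenvalues are congruent to the `a_ℓ` modulo a maximal ideal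
above `p`. -/
def TorsEigenStmt : Prop :=
  ∀ (M : ℕ) [NeZero M] (p : ℕ), p.Prime → ∀ x : JZero M, x ≠ 0 → (p : ℤ) • x = 0 →
    ∀ (a : ℕ → ℤ) (S : ℕ → Prop), (∀ ℓ, S ℓ → ℓ.Prime ∧ ¬ ℓ ∣ M) →
    (∀ (ℓ : ℕ) (hℓ : ℓ.Prime), S ℓ → heckeOperatorBar M ⟨ℓ, hℓ⟩ x = a ℓ • x) →
    ∃ (g : CuspForm (CongruenceSubgroup.Gamma0 M) 2) (𝔪 : Ideal Zbar),
      g.IsNormalizedEigenform ∧ 𝔪.IsMaximal ∧ (p : Zbar) ∈ 𝔪 ∧ CongruentTo g 𝔪 a S

/-- **`TameOldStmt` from `TorsEigenStmt`** -/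
theorem tameOldStmt_of_torsEigen (hT : TorsEigenStmt) : TameOldStmt := by
  intro M q _ _ hq A hqM hA h5 p hp hp5 hpq x hx hΨ hres a S hS hnonE heig
  have hp' : p.Prime := hp.out
  have hq' : q.Prime := hq.out
  have hqp : ¬ q ∣ p := fun h => hpq ((Nat.prime_dvd_prime_iff_eq hq' hp').1 h).symm
  have hx0 : (p : ℤ) • x = 0 := smul_eq_zero_of_mem_tors' hx
  haveI : HasPrincipalDivisors (IsLocalRing.ResidueField A) (FRes A M) := modHpdK hqM hA
  -- the two components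
  have hord₁ : ∀ Q : Place (IsLocalRing.ResidueField A) (FRes A M),
      Om.ordHom Q (tPsi hqM hA p x).1 = 0 := by
    intro Q
    by_cases hQ : ∃ c, Q = (modNod hqM hA).x₁ c
    · obtain ⟨c, rfl⟩ := hQ
      have := congrArg (fun r => r.1 c) hres
      exact this
    · push Not at hQ
      exact ordHom_psi_eq_zero_of_ne₁ (modNRed hqM hA h5) (modCtx hqM hA h5) hx0 hQ
  have hord₂ : ∀ Q : Place (IsLocalRing.ResidueField A) (FRes A M),
      Om.ordHom Q (tPsi hqM hA p x).2 = 0 := by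
    intro Q
    by_cases hQ : ∃ c, Q = (modNod hqM hA).x₂ c
    · obtain ⟨c, rfl⟩ := hQ
      have := congrArg (fun r => r.2 c) hres
      exact this
    · push Not at hQ
      exact ordHom_psi_eq_zero_of_ne₂ (modNRed hqM hA h5) (modCtx hqM hA h5) hx0 hQ
  have hS' : ∀ ℓ, S ℓ → ℓ.Prime ∧ ¬ ℓ ∣ M * q := fun ℓ h => ⟨(hS ℓ h).1, (hS ℓ h).2.1⟩
  have heig₁ : ∀ (ℓ : ℕ) [NeZero ℓ], S ℓ →
      Q4.heckeOm A M ℓ p (tPsi hqM hA p x).1 = a ℓ • (tPsi hqM hA p x).1 := by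
    intro ℓ _ hSℓ
    exact congrArg Prod.fst (heig ℓ (hS ℓ hSℓ).1 hSℓ)
  have heig₂ : ∀ (ℓ : ℕ) [NeZero ℓ], S ℓ →
      Q4.heckeOm A M ℓ p (tPsi hqM hA p x).2 = a ℓ • (tPsi hqM hA p x).2 := by
    intro ℓ _ hSℓ
    exact congrArg Prod.snd (heig ℓ (hS ℓ hSℓ).1 hSℓ)
  have hne : (tPsi hqM hA p x).1 ≠ 0 ∨ (tPsi hqM hA p x).2 ≠ 0 := by
    by_contra hcon
    rw [not_or, not_not, not_not] at hcon
    exact hΨ (Prod.ext hcon.1 hcon.2)
  have key : ∃ t : JZero M, t ≠ 0 ∧ (p : ℤ) • t = 0 ∧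
      ∀ (ℓ : ℕ) (hℓ : ℓ.Prime), S ℓ → heckeOperatorBar M ⟨ℓ, hℓ⟩ t = a ℓ • t := by
    rcases hne with h1 | h2
    · exact exists_eigen_torsion_of_om hqM hA p hp'.ne_zero hqp _ h1 hord₁ a S hS' heig₁
    · exact exists_eigen_torsion_of_om hqM hA p hp'.ne_zero hqp _ h2 hord₂ a S hS' heig₂
  obtain ⟨t, ht0, hpt, hte⟩ := key
  have hSM : ∀ ℓ, S ℓ → ℓ.Prime ∧ ¬ ℓ ∣ M := fun ℓ h =>
    ⟨(hS ℓ h).1, fun hd => (hS ℓ h).2.1 (hd.trans (Dvd.intro q rfl))⟩
  obtain ⟨g, 𝔪, hg, h𝔪, hp𝔪, hcong⟩ := hT M p hp' t ht0 hpt a S hSM hte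
  have hMq : M * q / q = M := Nat.mul_div_cancel M hq'.pos
  have fin : ∀ (M' : ℕ), M' = M → ∃ (g : CuspForm (CongruenceSubgroup.Gamma0 M') 2) (𝔪 : Ideal Zbar),
      g.IsNormalizedEigenform ∧ 𝔪.IsMaximal ∧ (p : Zbar) ∈ 𝔪 ∧ CongruentTo g 𝔪 a S := by
    rintro M' rfl
    exact ⟨g, 𝔪, hg, h𝔪, hp𝔪, hcong⟩
  exact fin _ hMq

end Fermat.Agent.S43lib.B0.Lift

end
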